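import Fermat.Agent.PartitionAsymptotic.Generating

/-!
# Cauchy's integral for `p(n)` and the two arcs

`2π p(n) = ∫_(-π)^π P (e^(-(y + iθ))) e^(n (y + iθ)) dθ`; for `|θ| ≥ y` the integrand is at most
`C exp (π²/6y + ny - 1/20y)`, and for `θ = y^(3/2) v` it is `saddleFun` up to a constant.
-/

set_option autoImplicit false

noncomputable section

namespace FA.PartitionAsymptotic

open Finset Filter Complex MeasureTheory FA.PartitionGrowth
open scoped Topology Real ComplexConjugate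

theorem prod_one_sub_pow_ne_zero {q : ℂ} (hq : ‖q‖ < 1) : ∏' m : ℕ, (1 - q ^ (m + 1)) ≠ 0 :=
  right_ne_zero_of_mul_eq_one (partGen_mul_prod hq)

theorem continuousAt_partGen {q : ℂ} (hq : ‖q‖ < 1) : ContinuousAt partGen q := by
  have hball : Metric.ball (0 : ℂ) 1 ∈ 𝓝 q :=
    Metric.isOpen_ball.mem_nhds (by simpa using hq)
  refine ((ModularForm.differentiableOn_tprod_one_sub_pow.differentiableAt hball).continuousAt.inv₀
    (prod_one_sub_pow_ne_zero hq)).congr ?_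
  filter_upwards [hball] with z hz
  exact inv_eq_of_mul_eq_one_left (partGen_mul_prod (by simpa using hz))

/-- The integrand on the circle of radius `e^(-y)`. -/
def circleFun (N : ℕ) (y θ : ℝ) : ℂ :=
  partGen (cexp (-((y : ℂ) + θ * I))) * cexp ((N : ℂ) * ((y : ℂ) + θ * I))

theorem norm_exp_neg_circle (y θ : ℝ) : ‖cexp (-((y : ℂ) + θ * I))‖ = Real.exp (-y) := by
  rw [Complex.norm_exp]
  simp

theorem continuous_circleFun {N : ℕ} {y : ℝ} (hy : 0 < y) : Continuous (circleFun N y) := by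
  refine Continuous.mul ?_ (by fun_prop)
  refine continuous_iff_continuousAt.2 fun θ => ?_
  refine ContinuousAt.comp (g := partGen) (f := fun θ : ℝ => cexp (-((y : ℂ) + θ * I)))
    (continuousAt_partGen ?_) (by fun_prop)
  rw [norm_exp_neg_circle]
  exact Real.exp_lt_one_iff.2 (by linarith)

/-- **Cauchy's integral.** -/
theorem integral_circleFun (N : ℕ) {y : ℝ} (hy : 0 < y) :
    ∫ θ in (-π)..π, circleFun N y θ = 2 * π * (partCount N : ℂ) := by
  obtain ⟨r, hr⟩ : ∃ r, r = Real.exp (-y) := ⟨_, rfl⟩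
  have hr0 : 0 ≤ r := hr ▸ (Real.exp_pos _).le
  have hr1 : r < 1 := hr ▸ Real.exp_lt_one_iff.2 (by linarith)
  obtain ⟨G, hG⟩ : ∃ G : ℕ → ℝ → ℂ, G = fun (m : ℕ) (θ : ℝ) =>
      (partCount m : ℂ) * cexp (((N : ℂ) - m) * ((y : ℂ) + (θ : ℂ) * I)) := ⟨_, rfl⟩
  have hsum : ∀ θ : ℝ, HasSum (fun m => G m θ) (circleFun N y θ) := fun θ => by
    have hq : ‖cexp (-((y : ℂ) + θ * I))‖ < 1 := by rw [norm_exp_neg_circle, ← hr]; exact hr1
    refine (((summable_norm_partTerm hq).of_norm.hasSum).mul_right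
      (cexp ((N : ℂ) * ((y : ℂ) + θ * I)))).congr_fun fun m => ?_
    rw [hG]
    simp only
    rw [mul_assoc, ← Complex.exp_nat_mul, ← Complex.exp_add]
    congr 2
    ring
  have hb : ∀ (m : ℕ) (θ : ℝ), ‖G m θ‖ ≤ Real.exp (N * y) * (partCount m * r ^ m) := fun m θ => by
    rw [hG]
    simp only
    rw [norm_mul, Complex.norm_real,
      Real.norm_of_nonneg (zero_le_one.trans (one_le_partCount m)), Complex.norm_exp, hr,
      ← Real.exp_nat_mul, mul_left_comm, ← Real.exp_add]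
    simp
    ring_nf
    rfl
  have hint := intervalIntegral.hasSum_integral_of_dominated_convergence (μ := volume)
    (a := -π) (b := π) (F := G) (f := circleFun N y)
    (fun m _ => Real.exp (N * y) * (partCount m * r ^ m))
    (fun m => Continuous.aestronglyMeasurable (by rw [hG]; fun_prop))
    (fun m => Eventually.of_forall fun θ _ => hb m θ)
    (Eventually.of_forall fun θ _ => (summable_partCount_mul_pow hr0 hr1).mul_left _)
    intervalIntegrable_const (Eventually.of_forall fun θ _ => hsum θ)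
  refine hint.unique ?_
  have hterm : ∀ m : ℕ, ∫ θ in (-π)..π, G m θ = if m = N then 2 * π * (partCount N : ℂ) else 0 := by
    intro m
    rw [hG]
    simp only
    rw [intervalIntegral.integral_const_mul]
    split_ifs with hm
    · subst hm
      simp
      ring
    · have hne : ((N : ℂ) - m) ≠ 0 := sub_ne_zero.2 (Nat.cast_injective.ne (Ne.symm hm))
      have e : ∀ θ : ℝ, cexp (((N : ℂ) - m) * ((y : ℂ) + θ * I)) =
          cexp (((N : ℂ) - m) * y) * cexp ((((N : ℂ) - m) * I) * θ) := fun θ => by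
        rw [← Complex.exp_add]
        ring_nf
      simp only [e]
      rw [intervalIntegral.integral_const_mul, integral_exp_mul_complex (mul_ne_zero hne I_ne_zero)]
      have hper : cexp (((N : ℂ) - m) * I * (π : ℝ)) = cexp (((N : ℂ) - m) * I * ((-π : ℝ) : ℂ)) :=
        Complex.exp_eq_exp_iff_exists_int.2 ⟨(N : ℤ) - m, by push_cast; ring⟩
      rw [hper, sub_self, zero_div, mul_zero, mul_zero]
  simp only [hterm]
  exact hasSum_ite_eq N _

/-- The bound near `0` and on the positive axis. -/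
theorem exists_norm_partGen_le : ∃ C, 0 < C ∧ ∀ y : ℝ, 0 < y → y ≤ 1 →
    ‖partGen ((Real.exp (-y) : ℝ) : ℂ)‖ ≤ C * Real.exp (π ^ 2 / (6 * y)) := by
  obtain ⟨K, hK, h⟩ := exists_norm_partGen_sub_one_le
  refine ⟨1 + K, by positivity, fun y hy hy1 => ?_⟩
  have e := partGen_exp_neg (w := (y : ℂ)) (by simpa using hy)
  rw [Complex.ofReal_exp, Complex.ofReal_neg, e, norm_mul, norm_mul, Complex.norm_exp]
  obtain ⟨q, hq⟩ : ∃ q, q = cexp (-(4 * (π : ℂ) ^ 2) / y) := ⟨_, rfl⟩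
  have hqn : ‖q‖ ≤ 1 / 2 := by
    rw [hq, show -(4 * (π : ℂ) ^ 2) / y = ((-(4 * π ^ 2) / y : ℝ) : ℂ) by push_cast; ring,
      Complex.norm_exp, Complex.ofReal_re]
    refine le_trans (Real.exp_le_exp.2 (show -(4 * π ^ 2) / y ≤ -1 from ?_)) ?_
    · rw [div_le_iff₀ hy]
      nlinarith [Real.pi_gt_three]
    · rw [Real.exp_neg, one_div]
      exact inv_anti₀ two_pos (by linarith [Real.add_one_le_exp (1 : ℝ)])
  rw [← hq]
  have h1 : ‖((y : ℂ) / (2 * π)) ^ (2⁻¹ : ℂ)‖ ≤ 1 := by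
    refine le_of_pow_le_pow_left₀ (n := 2) two_ne_zero zero_le_one ?_
    rw [← norm_pow, show (2⁻¹ : ℂ) = ((2 : ℕ) : ℂ)⁻¹ by norm_num,
      Complex.cpow_nat_inv_pow _ two_ne_zero, one_pow,
      show (y : ℂ) / (2 * π) = ((y / (2 * π) : ℝ) : ℂ) by push_cast; rfl, Complex.norm_real,
      Real.norm_of_nonneg (by positivity), div_le_one (by positivity)]
    linarith [Real.pi_gt_three]
  have h2 : Real.exp (((π : ℂ) ^ 2 / (6 * (y : ℂ)) - (y : ℂ) / 24).re) ≤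
      Real.exp (π ^ 2 / (6 * y)) := by
    rw [show (π : ℂ) ^ 2 / (6 * (y : ℂ)) - (y : ℂ) / 24 =
      ((π ^ 2 / (6 * y) - y / 24 : ℝ) : ℂ) by push_cast; ring, Complex.ofReal_re]
    exact Real.exp_le_exp.2 (by linarith)
  have h3 : ‖partGen q‖ ≤ 1 + K := by
    calc ‖partGen q‖ = ‖(partGen q - 1) + 1‖ := by rw [sub_add_cancel]
      _ ≤ K * ‖q‖ + 1 := (norm_add_le _ _).trans (add_le_add (h q hqn) norm_one.le)
      _ ≤ _ := by nlinarith
  calc _ ≤ 1 * Real.exp (π ^ 2 / (6 * y)) * (1 + K) := by gcongr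
    _ = _ := by ring

/-- **The minor arcs.** -/
theorem exists_norm_circleFun_le : ∃ C, 0 < C ∧ ∀ (N : ℕ) (y θ : ℝ), 0 < y → y ≤ 1 / 4 →
    y ≤ |θ| → |θ| ≤ π →
      ‖circleFun N y θ‖ ≤ C * Real.exp (π ^ 2 / (6 * y) + N * y - 1 / (20 * y)) := by
  obtain ⟨C, hC, h⟩ := exists_norm_partGen_le
  refine ⟨C, hC, fun N y θ hy hy4 hyθ hθ => ?_⟩
  obtain ⟨r, hr⟩ : ∃ r, r = Real.exp (-y) := ⟨_, rfl⟩
  obtain ⟨q, hq⟩ : ∃ q, q = cexp (-((y : ℂ) + θ * I)) := ⟨_, rfl⟩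
  have hqn : ‖q‖ = r := by rw [hq, norm_exp_neg_circle, hr]
  have hr1 : r < 1 := hr ▸ Real.exp_lt_one_iff.2 (by linarith)
  have hry : 1 - r ≤ y := by linarith [Real.add_one_le_exp (-y)]
  have hr34 : 3 / 4 ≤ r := by linarith
  have hre : q.re = r * Real.cos θ := by
    rw [hq, hr, Complex.exp_re]
    simp
  have hsq : (11 / 10 * (1 - r)) ^ 2 ≤ ‖1 - q‖ ^ 2 := by
    have e : ‖1 - q‖ ^ 2 = (1 - r) ^ 2 + 2 * r * (1 - Real.cos θ) := by
      have hn : q.re * q.re + q.im * q.im = r ^ 2 := by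
        rw [← hqn, Complex.sq_norm, Complex.normSq_apply]
      rw [Complex.sq_norm, Complex.normSq_apply]
      simp only [Complex.sub_re, Complex.sub_im, Complex.one_re, Complex.one_im]
      linear_combination hn - 2 * hre
    have h1 := mul_le_mul_of_nonneg_left (Real.cos_le_one_sub_mul_cos_sq hθ)
      (show 0 ≤ 2 * r by linarith)
    have h2 : (1 - r) ^ 2 ≤ θ ^ 2 := by
      rw [← sq_abs θ]
      exact pow_le_pow_left₀ (by linarith) (hry.trans hyθ) 2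
    have h3 : 3 / 10 ≤ 2 * r * (2 / π ^ 2) := by
      rw [mul_div_assoc', le_div_iff₀ (by positivity)]
      nlinarith [Real.pi_lt_d2, Real.pi_pos]
    rw [e]
    nlinarith [mul_le_mul h3 h2 (sq_nonneg _) (by positivity : (0 : ℝ) ≤ 2 * r * (2 / π ^ 2))]
  have hd : 11 / 10 * (1 - r) ≤ ‖1 - q‖ := le_of_pow_le_pow_left₀ two_ne_zero (norm_nonneg _) hsq
  have hexp : r / ‖1 - q‖ - r / (1 - r) ≤ -(1 / (20 * y)) := by
    have h1 : r / ‖1 - q‖ ≤ 10 / 11 * (r / (1 - r)) :=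
      (div_le_div_of_nonneg_left (by linarith) (by linarith) hd).trans (le_of_eq (by field_simp))
    have h2 : 3 / 4 / y ≤ r / (1 - r) :=
      div_le_div₀ (by linarith) hr34 (by linarith) hry
    have h3 : 1 / (20 * y) ≤ 1 / 11 * (3 / 4 / y) := by
      rw [div_div, div_mul_div_comm, div_le_div_iff₀ (by positivity) (by positivity)]
      linarith
    linarith [mul_le_mul_of_nonneg_left h2 (show (0 : ℝ) ≤ 1 / 11 by norm_num)]
  rw [circleFun, norm_mul, ← hq, Complex.norm_exp ((N : ℂ) * _),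
    show ((N : ℂ) * ((y : ℂ) + θ * I)).re = N * y by simp, sub_eq_add_neg, Real.exp_add,
    Real.exp_add]
  calc ‖partGen q‖ * Real.exp (N * y)
      ≤ C * Real.exp (π ^ 2 / (6 * y)) * Real.exp (-(1 / (20 * y))) * Real.exp (N * y) := by
        refine mul_le_mul_of_nonneg_right ((norm_partGen_le (hqn ▸ hr1)).trans ?_)
          (Real.exp_pos _).le
        rw [hqn]
        exact mul_le_mul (hr ▸ h y hy (by linarith)) (Real.exp_le_exp.2 hexp) (Real.exp_pos _).le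
          (by positivity)
    _ = _ := by ring

/-- The integrand on the major arc, after scaling. -/
def saddleFun (T v : ℝ) : ℂ :=
  cexp (-((π : ℂ) ^ 2 / 6 * (v : ℂ) ^ 2) / (1 + T * v * I)) * (1 + T * v * I) ^ (2⁻¹ : ℂ) *
    cexp (-((T : ℂ) ^ 2 * (1 + T * v * I)) / 24) *
    partGen (cexp (-(4 * (π : ℂ) ^ 2) / ((T : ℂ) ^ 2 * (1 + T * v * I))))

theorem one_add_mul_I_ne_zero (T v : ℝ) : 1 + (T : ℂ) * v * I ≠ 0 := fun h => by
  simpa using congrArg Complex.re h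

/-- **The major arc.** -/
theorem circleFun_scale {N : ℕ} {T : ℝ} (hT : 0 < T) (hN : (N : ℝ) * T ^ 4 = π ^ 2 / 6) (v : ℝ) :
    circleFun N (T ^ 2) (T ^ 3 * v) =
      ((Real.exp (π ^ 2 / (3 * T ^ 2)) * T / √(2 * π) : ℝ) : ℂ) * saddleFun T v := by
  obtain ⟨z, hz⟩ : ∃ z : ℂ, z = 1 + (T : ℂ) * v * I := ⟨_, rfl⟩
  have hz0 : z ≠ 0 := hz ▸ one_add_mul_I_ne_zero T v
  have hTC : (T : ℂ) ≠ 0 := ofReal_ne_zero.2 hT.ne'
  have hw : ((T ^ 2 : ℝ) : ℂ) + ((T ^ 3 * v : ℝ) : ℂ) * I = (T : ℂ) ^ 2 * z := by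
    rw [hz]; push_cast; ring
  have hre : 0 < ((T : ℂ) ^ 2 * z).re := by
    rw [← hw, Complex.add_re, Complex.ofReal_re, Complex.mul_I_re, Complex.ofReal_im, neg_zero,
      add_zero]
    exact pow_pos hT 2
  have hpi : 0 < 2 * π := by positivity
  have hsqrt : ((T : ℂ) ^ 2 * z / (2 * π)) ^ (2⁻¹ : ℂ) =
      ((T / √(2 * π) : ℝ) : ℂ) * z ^ (2⁻¹ : ℂ) := by
    rw [show (T : ℂ) ^ 2 * z / (2 * π) = ((T ^ 2 / (2 * π) : ℝ) : ℂ) * z by push_cast; ring,
      Complex.cpow_def_of_ne_zero (mul_ne_zero (ofReal_ne_zero.2 (by positivity)) hz0),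
      Complex.log_ofReal_mul (by positivity) hz0, add_mul, Complex.exp_add,
      ← Complex.cpow_def_of_ne_zero hz0]
    congr 1
    rw [show (2⁻¹ : ℂ) = ((2⁻¹ : ℝ) : ℂ) by norm_num, ← Complex.ofReal_mul, ← Complex.ofReal_exp,
      ← Real.rpow_def_of_pos (by positivity), ← one_div, ← Real.sqrt_eq_rpow,
      Real.sqrt_div' _ hpi.le, Real.sqrt_sq hT.le]
  have hNC : (N : ℂ) = (π : ℂ) ^ 2 / (6 * (T : ℂ) ^ 4) := by
    have h := congrArg (fun t : ℝ => (t : ℂ)) hN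
    push_cast at h
    field_simp
    linear_combination 6 * h
  rw [circleFun, hw, partGen_exp_neg hre, hsqrt, saddleFun, ← hz]
  push_cast
  rw [show cexp ((π : ℂ) ^ 2 / (3 * (T : ℂ) ^ 2)) * (T : ℂ) / ((√(2 * π) : ℝ) : ℂ) =
    (T : ℂ) / ((√(2 * π) : ℝ) : ℂ) * cexp ((π : ℂ) ^ 2 / (3 * (T : ℂ) ^ 2)) by ring]
  have key : cexp ((π : ℂ) ^ 2 / (6 * ((T : ℂ) ^ 2 * z)) - (T : ℂ) ^ 2 * z / 24) *
      cexp ((N : ℂ) * ((T : ℂ) ^ 2 * z)) =
      cexp ((π : ℂ) ^ 2 / (3 * (T : ℂ) ^ 2)) * (cexp (-((π : ℂ) ^ 2 / 6 * (v : ℂ) ^ 2) / z) *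
        cexp (-((T : ℂ) ^ 2 * z) / 24)) := by
    rw [← Complex.exp_add, ← Complex.exp_add, ← Complex.exp_add]
    congr 1
    rw [hNC]
    field_simp
    rw [hz]
    linear_combination (72 * (π : ℂ) ^ 2 * (T : ℂ) ^ 2 * (v : ℂ) ^ 2) * I_sq
  linear_combination ((T : ℂ) / ((√(2 * π) : ℝ) : ℂ) * z ^ (2⁻¹ : ℂ) *
    partGen (cexp (-(4 * (π : ℂ) ^ 2) / ((T : ℂ) ^ 2 * z)))) * key

end FA.PartitionAsymptotic
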