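import Fermat.Agent.PartitionGrowth.Main
import Fermat.Agent.Partition.Theta
import Fermat.Agent.ModField.JFunction
import Mathlib.NumberTheory.ModularForms.Discriminant
import Mathlib.Analysis.SpecialFunctions.Complex.LogBounds

/-!
# The generating function of the partitions on the unit disc

Euler's product, the bound `|P q| ≤ P |q| exp (|q| / |1 - q| - |q| / (1 - |q|))` away from `1`, and
the transformation `P (e^(-w)) = √(w/2π) exp (π²/6w - w/24) P (e^(-4π²/w))` of `η`.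
-/

set_option autoImplicit false

noncomputable section

namespace FA.PartitionAsymptotic

open Finset Filter Complex FA.PartitionGrowth
open scoped Topology Real PowerSeries.WithPiTopology

/-- `∑ p(n) qⁿ`. -/
def partGen (q : ℂ) : ℂ := ∑' n : ℕ, (partCount n : ℂ) * q ^ n

theorem summable_partCount_mul_pow {r : ℝ} (h0 : 0 ≤ r) (h1 : r < 1) :
    Summable fun n => partCount n * r ^ n := by
  obtain ⟨s, hs⟩ : ∃ s, s = max r (1 / 2) := ⟨_, rfl⟩
  have hs0 : 0 < s := hs ▸ lt_max_of_lt_right (by norm_num)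
  have hs1 : s < 1 := hs ▸ max_lt h1 (by norm_num)
  obtain ⟨ε, hε⟩ : ∃ ε, ε = -Real.log s / 2 := ⟨_, rfl⟩
  have hε0 : 0 < ε := by rw [hε]; linarith [Real.log_neg hs0 hs1]
  refine Summable.of_nonneg_of_le
    (fun n => mul_nonneg (zero_le_one.trans (one_le_partCount n)) (pow_nonneg h0 n)) (fun n => ?_)
    ((summable_geometric_of_lt_one (Real.exp_pos (-ε)).le
      (Real.exp_lt_one_iff.2 (neg_lt_zero.2 hε0))).mul_left (Real.exp (hrConst ^ 2 / (4 * ε))))
  calc partCount n * r ^ n ≤ Real.exp (hrConst * √(n : ℝ)) * s ^ n :=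
        mul_le_mul (partCount_le n) (pow_le_pow_left₀ h0 (hs ▸ le_max_left _ _) n)
          (pow_nonneg h0 n) (Real.exp_pos _).le
    _ ≤ Real.exp (hrConst ^ 2 / (4 * ε) + ε * n) * s ^ n := by
        refine mul_le_mul_of_nonneg_right (Real.exp_le_exp.2 ?_) (pow_nonneg hs0.le n)
        rw [div_add' _ _ _ (by positivity), le_div_iff₀ (by positivity)]
        linarith [sq_nonneg (hrConst - 2 * ε * √(n : ℝ)),
          congrArg (fun t : ℝ => 4 * ε ^ 2 * t) (Real.sq_sqrt (Nat.cast_nonneg n : (0 : ℝ) ≤ n))]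
    _ = Real.exp (hrConst ^ 2 / (4 * ε)) * Real.exp (-ε) ^ n := by
        rw [Real.exp_add, mul_assoc, mul_comm ε, Real.exp_nat_mul, ← mul_pow]
        congr 2
        rw [← Real.exp_log hs0, ← Real.exp_add]
        congr 1
        rw [hε]
        ring

theorem norm_partTerm (q : ℂ) (n : ℕ) : ‖(partCount n : ℂ) * q ^ n‖ = partCount n * ‖q‖ ^ n := by
  rw [norm_mul, norm_pow, Complex.norm_real,
    Real.norm_of_nonneg (zero_le_one.trans (one_le_partCount n))]

theorem summable_norm_partTerm {q : ℂ} (hq : ‖q‖ < 1) :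
    Summable fun n => ‖(partCount n : ℂ) * q ^ n‖ := by
  simp only [norm_partTerm]
  exact summable_partCount_mul_pow (norm_nonneg q) hq

theorem hasSum_prod_one_sub_pow {q : ℂ} (hq : ‖q‖ < 1) :
    HasSum (fun n : ℕ => ((PowerSeries.coeff n ModularCurve.etaProd : ℤ) : ℂ) * q ^ n)
      (∏' m : ℕ, (1 - q ^ (m + 1))) := by
  refine (Complex.hasSum_taylorSeries_on_ball (c := 0) (r := (1 : NNReal))
    (f := fun q : ℂ => ∏' n : ℕ, (1 - q ^ (n + 1)))
    (by simpa using ModularForm.differentiableOn_tprod_one_sub_pow)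
    (z := q) (by simpa using hq)).congr_fun fun n => ?_
  rw [FA.ModField.etaProd_taylor, smul_eq_mul, smul_eq_mul, sub_zero]
  have : (n.factorial : ℂ) ≠ 0 := by exact_mod_cast n.factorial_ne_zero
  field_simp

/-- **Euler's product.** -/
theorem partGen_mul_prod {q : ℂ} (hq : ‖q‖ < 1) :
    partGen q * ∏' m : ℕ, (1 - q ^ (m + 1)) = 1 := by
  have hs := hasSum_prod_one_sub_pow hq
  rw [partGen, ← hs.tsum_eq, tsum_mul_tsum_eq_tsum_sum_antidiagonal_of_summable_norm
    (summable_norm_partTerm hq) hs.summable.norm]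
  have e : ∀ n, ∑ kl ∈ antidiagonal n, (partCount kl.1 : ℂ) * q ^ kl.1 *
      (((PowerSeries.coeff kl.2 ModularCurve.etaProd : ℤ) : ℂ) * q ^ kl.2) =
        if n = 0 then 1 else 0 := by
    intro n
    have h := congrArg (fun f : PowerSeries ℤ => ((PowerSeries.coeff n f : ℤ) : ℂ))
      FA.Partition.partitionSeries_mul_etaProd
    simp only [PowerSeries.coeff_mul, PowerSeries.coeff_one, Int.cast_sum, Int.cast_mul,
      FA.Partition.partitionSeries, PowerSeries.coeff_mk, Int.cast_natCast] at h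
    calc _ = (∑ kl ∈ antidiagonal n, (partCount kl.1 : ℂ) *
          ((PowerSeries.coeff kl.2 ModularCurve.etaProd : ℤ) : ℂ)) * q ^ n := by
          rw [sum_mul]
          refine sum_congr rfl fun kl hkl => ?_
          rw [← mem_antidiagonal.1 hkl, pow_add]
          ring
      _ = _ := by
          simp only [partCount, Complex.ofReal_natCast]
          rw [h]
          split_ifs with h0 <;> simp [h0]
  simp only [e]
  exact tsum_ite_eq 0 _

theorem norm_partGen_le_real {q : ℂ} {r : ℝ} (hr : ‖q‖ ≤ r) (hr1 : r < 1) :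
    ‖partGen q‖ ≤ ∑' n, partCount n * r ^ n := by
  refine (norm_tsum_le_tsum_norm (summable_norm_partTerm (hr.trans_lt hr1))).trans
    ((summable_norm_partTerm (hr.trans_lt hr1)).tsum_le_tsum (fun n => ?_)
      (summable_partCount_mul_pow ((norm_nonneg q).trans hr) hr1))
  rw [norm_partTerm]
  exact mul_le_mul_of_nonneg_left (pow_le_pow_left₀ (norm_nonneg q) hr n)
    (zero_le_one.trans (one_le_partCount n))

/-- `P` is close to `1` near `0`. -/
theorem exists_norm_partGen_sub_one_le : ∃ K, 0 < K ∧ ∀ q : ℂ, ‖q‖ ≤ 1 / 2 →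
    ‖partGen q - 1‖ ≤ K * ‖q‖ := by
  obtain ⟨S, hS⟩ : ∃ S, S = ∑' n, partCount n * (1 / 2 : ℝ) ^ n := ⟨_, rfl⟩
  have hsum := summable_partCount_mul_pow (r := 1 / 2) (by norm_num) (by norm_num)
  have hS0 : 0 ≤ S := hS ▸ tsum_nonneg fun n =>
    mul_nonneg (zero_le_one.trans (one_le_partCount n)) (by positivity)
  refine ⟨2 * S + 1, by positivity, fun q hq => ?_⟩
  have hq1 : ‖q‖ < 1 := hq.trans_lt (by norm_num)
  have h0 : partCount 0 = 1 := by simp [partCount]
  have e : partGen q - 1 = ∑' n, (partCount (n + 1) : ℂ) * q ^ (n + 1) := by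
    rw [partGen, (summable_norm_partTerm hq1).of_norm.tsum_eq_zero_add, h0]
    simp
  rw [e]
  have hs' := (summable_nat_add_iff 1).2 (summable_norm_partTerm hq1)
  refine (norm_tsum_le_tsum_norm hs').trans ?_
  have hb : ∀ n, ‖(partCount (n + 1) : ℂ) * q ^ (n + 1)‖ ≤
      2 * ‖q‖ * (partCount (n + 1) * (1 / 2) ^ (n + 1)) := fun n => by
    rw [norm_partTerm, pow_succ', pow_succ' (1 / 2 : ℝ)]
    have := mul_le_mul_of_nonneg_left (pow_le_pow_left₀ (norm_nonneg q) hq n)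
      (mul_nonneg (norm_nonneg q) (zero_le_one.trans (one_le_partCount (n + 1))))
    linarith
  refine (hs'.tsum_le_tsum hb (((summable_nat_add_iff 1).2 hsum).mul_left _)).trans ?_
  rw [tsum_mul_left]
  have := hsum.tsum_eq_zero_add
  rw [← hS, h0, pow_zero, mul_one] at this
  nlinarith [mul_nonneg (norm_nonneg q) hS0, norm_nonneg q]

/-- One factor of the product. -/
theorem one_sub_norm_le_mul_exp {z : ℂ} (hz : ‖z‖ < 1) :
    1 - ‖z‖ ≤ ‖1 - z‖ * Real.exp (z.re - ‖z‖) := by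
  have hx : ‖((‖z‖ : ℝ) : ℂ)‖ < 1 := by
    rwa [Complex.norm_real, Real.norm_of_nonneg (norm_nonneg z)]
  have h := (Complex.hasSum_re (Complex.hasSum_taylorSeries_neg_log hx)).sub
    (Complex.hasSum_re (Complex.hasSum_taylorSeries_neg_log hz))
  have hd : ∀ n : ℕ, n ≠ 1 → 0 ≤ (((‖z‖ : ℝ) : ℂ) ^ n / n).re - (z ^ n / n).re := fun n _ => by
    rw [Complex.div_natCast_re, Complex.div_natCast_re, ← Complex.ofReal_pow, Complex.ofReal_re,
      ← norm_pow, sub_nonneg]
    exact div_le_div_of_nonneg_right (Complex.re_le_norm _) (Nat.cast_nonneg n)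
  have h1 := le_hasSum h 1 hd
  simp only [pow_one, Nat.cast_one, div_one, Complex.neg_re, Complex.log_re,
    Complex.ofReal_re] at h1
  have hpos : 0 < ‖1 - z‖ := norm_pos_iff.2 (sub_ne_zero.2 fun h => by rw [← h] at hz; simp at hz)
  have e : ‖1 - ((‖z‖ : ℝ) : ℂ)‖ = 1 - ‖z‖ := by
    rw [← Complex.ofReal_one, ← Complex.ofReal_sub, Complex.norm_real,
      Real.norm_of_nonneg (by linarith)]
  rw [e] at h1
  have hlog : Real.log (1 - ‖z‖) ≤ Real.log ‖1 - z‖ + (z.re - ‖z‖) := by linarith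
  calc 1 - ‖z‖ = Real.exp (Real.log (1 - ‖z‖)) := (Real.exp_log (by linarith)).symm
    _ ≤ Real.exp (Real.log ‖1 - z‖ + (z.re - ‖z‖)) := Real.exp_le_exp.2 hlog
    _ = _ := by rw [Real.exp_add, Real.exp_log hpos]

/-- **The bound off the positive axis.** -/
theorem norm_partGen_le {q : ℂ} (hq : ‖q‖ < 1) :
    ‖partGen q‖ ≤ ‖partGen (‖q‖ : ℝ)‖ * Real.exp (‖q‖ / ‖1 - q‖ - ‖q‖ / (1 - ‖q‖)) := by
  obtain ⟨r, hr⟩ : ∃ r, r = ‖q‖ := ⟨_, rfl⟩
  rw [← hr] at hq ⊢
  have hr0 : 0 ≤ r := hr ▸ norm_nonneg q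
  have hqn : ‖q‖ < 1 := hr ▸ hq
  have hrn : ‖((r : ℝ) : ℂ)‖ < 1 := by rwa [Complex.norm_real, Real.norm_of_nonneg hr0]
  have hgeom : Tendsto (fun N => ∑ m ∈ range N, ((q ^ (m + 1)).re - r ^ (m + 1))) atTop
      (𝓝 ((q / (1 - q)).re - r / (1 - r))) := by
    have h1 : HasSum (fun m : ℕ => (q ^ (m + 1)).re) ((q / (1 - q)).re) := by
      refine Complex.hasSum_re ?_
      simpa [pow_succ', div_eq_mul_inv] using (hasSum_geometric_of_norm_lt_one hqn).mul_left q
    have h2 : HasSum (fun m : ℕ => r ^ (m + 1)) (r / (1 - r)) := by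
      simpa [pow_succ', div_eq_mul_inv] using (hasSum_geometric_of_lt_one hr0 hq).mul_left r
    exact (h1.sub h2).tendsto_sum_nat
  have hlim : ∀ z : ℂ, ‖z‖ < 1 → Tendsto (fun N => ∏ m ∈ range N, ‖1 - z ^ (m + 1)‖) atTop
      (𝓝 ‖∏' m : ℕ, (1 - z ^ (m + 1))‖) := fun z hz => by
    simp only [← norm_prod]
    exact (ModularForm.multipliable_one_sub_pow hz).hasProd.tendsto_prod_nat.norm
  have hfin : ∀ N : ℕ, ∏ m ∈ range N, ‖1 - ((r : ℝ) : ℂ) ^ (m + 1)‖ ≤
      (∏ m ∈ range N, ‖1 - q ^ (m + 1)‖) *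
        Real.exp (∑ m ∈ range N, ((q ^ (m + 1)).re - r ^ (m + 1))) := fun N => by
    rw [Real.exp_sum, ← prod_mul_distrib]
    refine prod_le_prod (fun m _ => norm_nonneg _) fun m _ => ?_
    have hp : ‖q ^ (m + 1)‖ = r ^ (m + 1) := by rw [norm_pow, hr]
    have h1 := one_sub_norm_le_mul_exp (z := q ^ (m + 1))
      (hp ▸ pow_lt_one₀ hr0 hq m.succ_ne_zero)
    rw [hp] at h1
    rwa [← Complex.ofReal_pow, ← Complex.ofReal_one, ← Complex.ofReal_sub, Complex.norm_real,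
      Real.norm_of_nonneg (sub_nonneg.2 (pow_le_one₀ hr0 hq.le)), Complex.ofReal_one]
  have h := le_of_tendsto_of_tendsto' (hlim _ hrn)
    ((hlim _ hqn).mul ((Real.continuous_exp.tendsto _).comp hgeom)) hfin
  have e1 := congrArg norm (partGen_mul_prod hqn)
  have e2 := congrArg norm (partGen_mul_prod hrn)
  rw [norm_mul, norm_one] at e1 e2
  have hre : (q / (1 - q)).re ≤ r / ‖1 - q‖ := by
    rw [hr, ← norm_div]
    exact Complex.re_le_norm _
  calc ‖partGen q‖ = ‖partGen q‖ * (‖partGen (r : ℝ)‖ *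
        ‖∏' m : ℕ, (1 - ((r : ℝ) : ℂ) ^ (m + 1))‖) := by rw [e2, mul_one]
    _ ≤ ‖partGen q‖ * (‖partGen (r : ℝ)‖ * (‖∏' m : ℕ, (1 - q ^ (m + 1))‖ *
        Real.exp ((q / (1 - q)).re - r / (1 - r)))) :=
        mul_le_mul_of_nonneg_left (mul_le_mul_of_nonneg_left h (norm_nonneg _)) (norm_nonneg _)
    _ = ‖partGen (r : ℝ)‖ * Real.exp ((q / (1 - q)).re - r / (1 - r)) *
        (‖partGen q‖ * ‖∏' m : ℕ, (1 - q ^ (m + 1))‖) := by ring
    _ ≤ _ := by
        rw [e1, mul_one]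
        exact mul_le_mul_of_nonneg_left (Real.exp_le_exp.2 (by linarith)) (norm_nonneg _)

theorem eta_mul_partGen {τ : ℂ} (hτ : 0 < τ.im) :
    ModularForm.eta τ * partGen (cexp (2 * π * I * τ)) = cexp (π * I * τ / 12) := by
  have hq : ‖cexp (2 * π * I * τ)‖ < 1 :=
    UpperHalfPlane.norm_exp_two_pi_I_lt_one ⟨τ, hτ⟩
  rw [ModularForm.eta]
  simp only [ModularForm.eta_q_eq_pow]
  rw [mul_assoc, mul_comm (∏' m, _) (partGen _), partGen_mul_prod hq, mul_one,
    Function.Periodic.qParam]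
  congr 1
  push_cast
  ring

/-- **The transformation of the generating function.** -/
theorem partGen_exp_neg {w : ℂ} (hw : 0 < w.re) :
    partGen (cexp (-w)) = (w / (2 * π)) ^ (2⁻¹ : ℂ) *
      cexp ((π : ℂ) ^ 2 / (6 * w) - w / 24) * partGen (cexp (-(4 * (π : ℂ) ^ 2) / w)) := by
  have hw0 : w ≠ 0 := fun h => by simp [h] at hw
  have hπ : (π : ℂ) ≠ 0 := ofReal_ne_zero.2 Real.pi_ne_zero
  obtain ⟨v, hv⟩ : ∃ v, v = w / (2 * π) := ⟨_, rfl⟩
  have hv0 : v ≠ 0 := hv ▸ div_ne_zero hw0 (mul_ne_zero two_ne_zero hπ)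
  have hvre : 0 < v.re := by
    rw [hv, ← Complex.ofReal_ofNat, ← Complex.ofReal_mul, Complex.div_ofReal_re]
    positivity
  obtain ⟨τ, hτd⟩ : ∃ τ, τ = I * v := ⟨_, rfl⟩
  have hτ : 0 < τ.im := by rw [hτd, Complex.I_mul_im]; exact hvre
  have hτ0 : τ ≠ 0 := fun h => by simp [h] at hτ
  have hsqrt : Complex.sqrt τ = Complex.sqrt I * v ^ (2⁻¹ : ℂ) := by
    have harg : Complex.arg I + v.arg ∈ Set.Ioc (-π) π := by
      have := (Complex.abs_arg_lt_pi_div_two_iff).2 (Or.inl hvre)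
      rw [abs_lt] at this
      rw [Complex.arg_I]
      constructor <;> linarith [Real.pi_pos]
    rw [Complex.sqrt, Complex.sqrt, hτd, Complex.cpow_def_of_ne_zero (mul_ne_zero I_ne_zero hv0),
      Complex.cpow_def_of_ne_zero I_ne_zero, Complex.cpow_def_of_ne_zero hv0, ← Complex.exp_add,
      ← add_mul, (Complex.log_mul_eq_add_log_iff I_ne_zero hv0).2 harg]
  have hsI : Complex.sqrt I ≠ 0 := by
    rw [Complex.sqrt, Complex.cpow_def_of_ne_zero I_ne_zero]
    exact Complex.exp_ne_zero _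
  have hS := ModularForm.eta_comp_eq_csqrt_I_inv (x := τ) hτ
  simp only [Function.comp_apply, Pi.smul_apply, Pi.mul_apply, smul_eq_mul] at hS
  rw [hsqrt, mul_assoc, inv_mul_cancel_left₀ hsI] at hS
  have h1 := eta_mul_partGen hτ
  have h2 := eta_mul_partGen (τ := -1 / τ) (by
    rw [neg_div, Complex.neg_im, one_div, Complex.inv_im, neg_div, neg_neg]
    exact div_pos hτ (Complex.normSq_pos.2 hτ0))
  have hwv : w = 2 * π * v := by rw [hv]; field_simp
  have a1 : 2 * (π : ℂ) * I * τ = -w := by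
    rw [hτd, hwv]
    linear_combination (2 * (π : ℂ) * v) * I_sq
  have a2 : 2 * (π : ℂ) * I * (-1 / τ) = -(4 * (π : ℂ) ^ 2) / w := by
    rw [hτd, hwv]
    field_simp
    ring
  have a3 : (π : ℂ) * I * τ / 12 = -w / 24 := by
    linear_combination (1 / 24 : ℂ) * a1
  have a4 : (π : ℂ) * I * (-1 / τ) / 12 = -((π : ℂ) ^ 2 / (6 * w)) := by
    linear_combination (1 / 24 : ℂ) * a2
  rw [a1, a3] at h1
  rw [a2, a4, hS] at h2
  rw [show (π : ℂ) ^ 2 / (6 * w) - w / 24 = -w / 24 + (π : ℂ) ^ 2 / (6 * w) by ring,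
    Complex.exp_add, ← hv, ← h1]
  rw [Complex.exp_neg] at h2
  have hne := Complex.exp_ne_zero ((π : ℂ) ^ 2 / (6 * w))
  have h3 := congrArg (· * cexp ((π : ℂ) ^ 2 / (6 * w))) h2
  simp only [inv_mul_cancel₀ hne] at h3
  linear_combination (-partGen (cexp (-w))) * h3

end FA.PartitionAsymptotic
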