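import Fermat.Agent.PartitionAsymptotic.Circle
import Mathlib.Analysis.SpecialFunctions.Gaussian.GaussianIntegral
import Mathlib.Analysis.SpecialFunctions.Exp
import Mathlib.Analysis.Asymptotics.AsymptoticEquivalent

/-!
# `p(n) ∼ exp (π √(2n/3)) / (4 √3 n)`

With `T⁴ = π²/6n` the major arc is `exp (π²/3T²) T⁴ / √(2π)` times an integral tending to the
Gaussian one by dominated convergence; the minor arcs are exponentially smaller.
-/

set_option autoImplicit false

noncomputable section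

namespace FA.PartitionAsymptotic

open Filter MeasureTheory Complex FA.PartitionGrowth
open scoped Topology Real

theorem norm_sqrtC_le {z : ℂ} {R : ℝ} (hR : 0 ≤ R) (h : ‖z‖ ≤ R ^ 2) :
    ‖z ^ (2⁻¹ : ℂ)‖ ≤ R := by
  refine le_of_pow_le_pow_left₀ (n := 2) two_ne_zero hR ?_
  rwa [← norm_pow, show (2⁻¹ : ℂ) = ((2 : ℕ) : ℂ)⁻¹ by norm_num,
    Complex.cpow_nat_inv_pow _ two_ne_zero]

theorem norm_innerExp (T v : ℝ) :
    ‖cexp (-(4 * (π : ℂ) ^ 2) / ((T : ℂ) ^ 2 * (1 + T * v * I)))‖ =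
      Real.exp (-(4 * π ^ 2 / (T ^ 2 * (1 + (T * v) ^ 2)))) := by
  rw [Complex.norm_exp, show -(4 * (π : ℂ) ^ 2) / ((T : ℂ) ^ 2 * (1 + T * v * I)) =
    ((-(4 * π ^ 2 / T ^ 2) : ℝ) : ℂ) / (1 + T * v * I) by push_cast; rw [neg_div', div_div],
    Complex.div_re, Complex.ofReal_re, Complex.ofReal_im]
  congr 1
  rw [← div_div (4 * π ^ 2) (T ^ 2)]
  simp [Complex.normSq_apply]
  ring

theorem innerExp_norm_le {T v : ℝ} (hT : 0 < T) (hv : |T * v| ≤ 1) :
    ‖cexp (-(4 * (π : ℂ) ^ 2) / ((T : ℂ) ^ 2 * (1 + T * v * I)))‖ ≤ T ^ 2 / 2 := by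
  have h1 : (T * v) ^ 2 ≤ 1 := (sq_le_one_iff_abs_le_one _).2 hv
  have hd : 0 < T ^ 2 * (1 + (T * v) ^ 2) := by positivity
  rw [norm_innerExp, Real.exp_neg]
  refine (inv_anti₀ (by positivity) (le_trans (le_add_of_nonneg_right zero_le_one)
    (Real.add_one_le_exp _))).trans ?_
  rw [inv_div, div_le_div_iff₀ (by positivity) two_pos]
  nlinarith [mul_le_mul_of_nonneg_left h1 (sq_nonneg T),
    mul_le_mul_of_nonneg_left (show 4 ≤ 4 * π ^ 2 by nlinarith [Real.pi_gt_three]) (sq_nonneg T)]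

/-- The dominating function. -/
theorem exists_norm_saddleFun_le : ∃ C, 0 < C ∧ ∀ T v : ℝ, 0 < T → T ≤ 1 → |T * v| ≤ 1 →
    ‖saddleFun T v‖ ≤ C * Real.exp (-(π ^ 2 / 12) * v ^ 2) := by
  obtain ⟨K, hK, h⟩ := exists_norm_partGen_sub_one_le
  refine ⟨2 * (1 + K), by positivity, fun T v hT hT1 hv => ?_⟩
  obtain ⟨q, hq⟩ : ∃ q, q = cexp (-(4 * (π : ℂ) ^ 2) / ((T : ℂ) ^ 2 * (1 + T * v * I))) :=
    ⟨_, rfl⟩
  have h1 : (T * v) ^ 2 ≤ 1 := (sq_le_one_iff_abs_le_one _).2 hv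
  have hqn : ‖q‖ ≤ 1 / 2 := by
    rw [hq]
    exact (innerExp_norm_le hT hv).trans (by nlinarith)
  have b1 : ‖cexp (-((π : ℂ) ^ 2 / 6 * (v : ℂ) ^ 2) / (1 + T * v * I))‖ ≤
      Real.exp (-(π ^ 2 / 12) * v ^ 2) := by
    rw [Complex.norm_exp, show -((π : ℂ) ^ 2 / 6 * (v : ℂ) ^ 2) =
      ((-(π ^ 2 / 6 * v ^ 2) : ℝ) : ℂ) by push_cast; rfl, Complex.div_re,
      Complex.ofReal_re, Complex.ofReal_im]
    refine Real.exp_le_exp.2 ?_
    simp [Complex.normSq_apply]
    rw [neg_div, neg_le_neg_iff, le_div_iff₀ (by nlinarith [mul_self_nonneg (T * v)])]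
    nlinarith [mul_le_mul_of_nonneg_left h1 (mul_nonneg (sq_nonneg π) (sq_nonneg v))]
  have b2 : ‖(1 + (T : ℂ) * v * I) ^ (2⁻¹ : ℂ)‖ ≤ 2 := by
    refine norm_sqrtC_le zero_le_two ((norm_add_le _ _).trans ?_)
    rw [norm_one, norm_mul, ← Complex.ofReal_mul, Complex.norm_real, Real.norm_eq_abs,
      Complex.norm_I, mul_one]
    linarith
  have b3 : ‖cexp (-((T : ℂ) ^ 2 * (1 + T * v * I)) / 24)‖ ≤ 1 := by
    rw [Complex.norm_exp]
    refine Real.exp_le_one_iff.2 ?_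
    simp [pow_two]
    nlinarith [mul_pos hT hT]
  have b4 : ‖partGen q‖ ≤ 1 + K := by
    calc ‖partGen q‖ = ‖(partGen q - 1) + 1‖ := by rw [sub_add_cancel]
      _ ≤ K * ‖q‖ + 1 := (norm_add_le _ _).trans (add_le_add (h q hqn) norm_one.le)
      _ ≤ _ := by nlinarith
  rw [saddleFun, ← hq, norm_mul, norm_mul, norm_mul]
  calc _ ≤ Real.exp (-(π ^ 2 / 12) * v ^ 2) * 2 * 1 * (1 + K) := by gcongr
    _ = _ := by ring

theorem tendsto_saddleFun (v : ℝ) : Tendsto (fun T => saddleFun T v) (𝓝[>] (0 : ℝ))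
    (𝓝 ((Real.exp (-(π ^ 2 / 6) * v ^ 2) : ℝ) : ℂ)) := by
  obtain ⟨K, hK, h⟩ := exists_norm_partGen_sub_one_le
  have hev : ∀ᶠ T in 𝓝[>] (0 : ℝ), 0 < T ∧ T ≤ 1 ∧ |T * v| ≤ 1 := by
    have h1 : Tendsto (fun T : ℝ => |T * v|) (𝓝[>] 0) (𝓝 0) := by
      refine tendsto_nhdsWithin_of_tendsto_nhds (Continuous.tendsto' (by fun_prop) _ _ ?_)
      simp
    filter_upwards [self_mem_nhdsWithin, h1.eventually (eventually_le_nhds zero_lt_one),
      (tendsto_nhdsWithin_of_tendsto_nhds tendsto_id).eventually (eventually_le_nhds zero_lt_one)]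
      with T hT hTv hT1
    exact ⟨hT, hT1, hTv⟩
  have hc : ∀ f : ℝ → ℂ, ∀ c : ℂ, ContinuousAt f 0 → f 0 = c →
      Tendsto f (𝓝[>] (0 : ℝ)) (𝓝 c) := fun f c hf hc =>
    hc ▸ tendsto_nhdsWithin_of_tendsto_nhds hf.tendsto
  have e1 := hc (fun T : ℝ => cexp (-((π : ℂ) ^ 2 / 6 * (v : ℂ) ^ 2) / (1 + T * v * I)))
    ((Real.exp (-(π ^ 2 / 6) * v ^ 2) : ℝ) : ℂ)
    (ContinuousAt.cexp (ContinuousAt.div (by fun_prop) (by fun_prop) (one_add_mul_I_ne_zero 0 v)))
    (by push_cast; ring_nf)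
  have e2 := hc (fun T : ℝ => (1 + (T : ℂ) * v * I) ^ (2⁻¹ : ℂ)) 1
    (ContinuousAt.cpow (by fun_prop) continuousAt_const (Or.inl (by simp))) (by simp)
  have e3 := hc (fun T : ℝ => cexp (-((T : ℂ) ^ 2 * (1 + T * v * I)) / 24)) 1
    (by fun_prop) (by simp)
  have e4 : Tendsto (fun T : ℝ =>
      partGen (cexp (-(4 * (π : ℂ) ^ 2) / ((T : ℂ) ^ 2 * (1 + T * v * I))))) (𝓝[>] 0) (𝓝 1) := by
    refine tendsto_iff_norm_sub_tendsto_zero.2 (squeeze_zero_norm' (a := fun T => K * T ^ 2) ?_ ?_)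
    · filter_upwards [hev] with T hT
      have hn := innerExp_norm_le hT.1 hT.2.2
      have hT2 : T ^ 2 ≤ 1 := pow_le_one₀ hT.1.le hT.2.1
      rw [Real.norm_of_nonneg (norm_nonneg _)]
      exact (h _ (hn.trans (by linarith))).trans
        (mul_le_mul_of_nonneg_left (hn.trans (by linarith [sq_nonneg T])) hK.le)
    · refine tendsto_nhdsWithin_of_tendsto_nhds (Continuous.tendsto' (by fun_prop) _ _ ?_)
      simp
  simpa [saddleFun] using ((e1.mul e2).mul e3).mul e4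

theorem continuousOn_saddleFun {T : ℝ} (hT : 0 < T) : Continuous (saddleFun T) := by
  have hz : ∀ v : ℝ, 1 + (T : ℂ) * v * I ≠ 0 := one_add_mul_I_ne_zero T
  have hT2 : (T : ℂ) ^ 2 ≠ 0 := pow_ne_zero 2 (ofReal_ne_zero.2 hT.ne')
  unfold saddleFun
  refine ((Continuous.mul ?_ ?_).mul (by fun_prop)).mul (continuous_iff_continuousAt.2 fun v => ?_)
  · exact (Continuous.div (by fun_prop) (by fun_prop) hz).cexp
  · exact Continuous.cpow (by fun_prop) continuous_const fun v => Or.inl (by simp)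
  · refine ContinuousAt.comp (g := partGen) (f := fun v : ℝ =>
      cexp (-(4 * (π : ℂ) ^ 2) / ((T : ℂ) ^ 2 * (1 + T * v * I)))) (continuousAt_partGen ?_)
      (ContinuousAt.cexp (ContinuousAt.div (by fun_prop) (by fun_prop) (mul_ne_zero hT2 (hz v))))
    rw [norm_innerExp, Real.exp_lt_one_iff, neg_lt_zero]
    positivity

/-- **The major arc in the limit.** -/
theorem tendsto_integral_saddleFun :
    Tendsto (fun T : ℝ => ∫ v in (-(1 / T))..(1 / T), saddleFun T v) (𝓝[>] (0 : ℝ))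
      (𝓝 ((√(π / (π ^ 2 / 6)) : ℝ) : ℂ)) := by
  obtain ⟨C, hC, hb⟩ := exists_norm_saddleFun_le
  have hlim := tendsto_integral_filter_of_dominated_convergence (μ := (volume : Measure ℝ))
    (F := fun T v => (Set.Ioc (-(1 / T)) (1 / T)).indicator (saddleFun T) v)
    (f := fun v => ((Real.exp (-(π ^ 2 / 6) * v ^ 2) : ℝ) : ℂ)) (l := 𝓝[>] (0 : ℝ))
    (fun v => C * Real.exp (-(π ^ 2 / 12) * v ^ 2)) ?_ ?_
    ((integrable_exp_neg_mul_sq (by positivity)).const_mul C) (Eventually.of_forall fun v => ?_)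
  · rw [integral_complex_ofReal, integral_gaussian] at hlim
    refine hlim.congr' ?_
    filter_upwards [self_mem_nhdsWithin] with T hT
    have hT0 : (0 : ℝ) < T := hT
    rw [intervalIntegral.integral_of_le (by linarith [show (0 : ℝ) < 1 / T by positivity]),
      integral_indicator measurableSet_Ioc]
  · filter_upwards [self_mem_nhdsWithin] with T hT
    exact (continuousOn_saddleFun hT).aestronglyMeasurable.indicator measurableSet_Ioc
  · filter_upwards [self_mem_nhdsWithin,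
      (tendsto_nhdsWithin_of_tendsto_nhds tendsto_id).eventually (eventually_le_nhds zero_lt_one)]
      with T hT hT1
    refine Eventually.of_forall fun v => ?_
    by_cases hv : v ∈ Set.Ioc (-(1 / T)) (1 / T)
    · rw [Set.indicator_of_mem hv]
      refine hb T v hT hT1 ?_
      have hT0 : (0 : ℝ) < T := hT
      obtain ⟨h1, h2⟩ := hv
      rw [le_div_iff₀ hT0] at h2
      rw [neg_lt, lt_div_iff₀ hT0] at h1
      rw [abs_le]
      constructor <;> linarith
    · rw [Set.indicator_of_notMem hv, norm_zero]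
      positivity
  · refine (tendsto_saddleFun v).congr' ?_
    filter_upwards [self_mem_nhdsWithin, (tendsto_inv_nhdsGT_zero).eventually_gt_atTop |v|]
      with T hT hTv
    rw [Set.indicator_of_mem]
    rw [← one_div, abs_lt] at hTv
    exact ⟨hTv.1, hTv.2.le⟩

/-- **The comparison with the major arc.** -/
theorem exists_partCount_sub_le : ∃ C, 0 < C ∧ ∀ (N : ℕ) (T : ℝ), 0 < T → T ≤ 1 / 2 →
    (N : ℝ) * T ^ 4 = π ^ 2 / 6 →
      ‖2 * π * (partCount N : ℂ) - ((Real.exp (π ^ 2 / (3 * T ^ 2)) * T ^ 4 / √(2 * π) : ℝ) : ℂ) *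
          ∫ v in (-(1 / T))..(1 / T), saddleFun T v‖ ≤
        C * Real.exp (π ^ 2 / (3 * T ^ 2)) * Real.exp (-(1 / (20 * T ^ 2))) := by
  obtain ⟨C, hC, h⟩ := exists_norm_circleFun_le
  refine ⟨2 * π * C, by positivity, fun N T hT hT2 hN => ?_⟩
  obtain ⟨y, hy⟩ : ∃ y, y = T ^ 2 := ⟨_, rfl⟩
  have hy0 : 0 < y := hy ▸ pow_pos hT 2
  have hy4 : y ≤ 1 / 4 := hy ▸ (pow_le_pow_left₀ hT.le hT2 2).trans_eq (by norm_num)
  have hc := continuous_circleFun (N := N) hy0
  have hmid : ∫ θ in (-y)..y, circleFun N y θ =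
      ((Real.exp (π ^ 2 / (3 * T ^ 2)) * T ^ 4 / √(2 * π) : ℝ) : ℂ) *
        ∫ v in (-(1 / T))..(1 / T), saddleFun T v := by
    have h1 := intervalIntegral.integral_comp_mul_left (circleFun N y)
      (a := -(1 / T)) (b := 1 / T) (pow_ne_zero 3 hT.ne')
    rw [show T ^ 3 * -(1 / T) = -y by rw [hy]; field_simp,
      show T ^ 3 * (1 / T) = y by rw [hy]; field_simp] at h1
    simp only [hy, circleFun_scale hT hN] at h1
    rw [intervalIntegral.integral_const_mul, Complex.real_smul] at h1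
    rw [← hy] at h1
    have hT3 : ((T ^ 3 : ℝ) : ℂ) * (((T ^ 3)⁻¹ : ℝ) : ℂ) = 1 := by
      rw [← Complex.ofReal_mul, mul_inv_cancel₀ (pow_ne_zero 3 hT.ne'), Complex.ofReal_one]
    calc ∫ θ in (-y)..y, circleFun N y θ
        = ((T ^ 3 : ℝ) : ℂ) * ((((T ^ 3)⁻¹ : ℝ) : ℂ) * ∫ θ in (-y)..y, circleFun N y θ) := by
          rw [← mul_assoc, hT3, one_mul]
      _ = _ := by
          rw [← h1]
          simp only [hy]
          push_cast
          ring
  have hbd : ∀ θ : ℝ, y ≤ |θ| → |θ| ≤ π → ‖circleFun N y θ‖ ≤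
      C * (Real.exp (π ^ 2 / (3 * T ^ 2)) * Real.exp (-(1 / (20 * T ^ 2)))) := fun θ h1 h2 => by
    refine (h N y θ hy0 hy4 h1 h2).trans (le_of_eq ?_)
    rw [← Real.exp_add]
    congr 2
    rw [hy, show (N : ℝ) * T ^ 2 = (N : ℝ) * T ^ 4 / T ^ 2 by field_simp, hN]
    field_simp
    ring
  have hyπ : y ≤ π := by linarith [Real.pi_gt_three]
  have hl := intervalIntegral.norm_integral_le_of_norm_le_const (a := -π) (b := -y)
    (f := circleFun N y) fun θ hθ => by
      rw [Set.uIoc_of_le (by linarith)] at hθ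
      refine hbd θ ?_ ?_ <;> rw [abs_of_nonpos (by linarith [hθ.2])] <;> linarith [hθ.1, hθ.2]
  have hr := intervalIntegral.norm_integral_le_of_norm_le_const (a := y) (b := π)
    (f := circleFun N y) fun θ hθ => by
      rw [Set.uIoc_of_le hyπ] at hθ
      refine hbd θ ?_ ?_ <;> rw [abs_of_nonneg (by linarith [hθ.1])] <;> linarith [hθ.1, hθ.2]
  rw [abs_of_nonneg (by linarith)] at hl hr
  have htot := integral_circleFun N hy0
  rw [← intervalIntegral.integral_add_adjacent_intervals (b := y) (hc.intervalIntegrable _ _)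
    (hc.intervalIntegrable _ _), ← intervalIntegral.integral_add_adjacent_intervals (a := -π)
    (b := -y) (c := y) (hc.intervalIntegrable _ _) (hc.intervalIntegrable _ _), hmid] at htot
  rw [← htot, show ∀ A B D : ℂ, A + B + D - B = A + D from fun A B D => by ring]
  refine ((norm_add_le _ _).trans (add_le_add hl hr)).trans ?_
  have hE : 0 ≤ C * (Real.exp (π ^ 2 / (3 * T ^ 2)) * Real.exp (-(1 / (20 * T ^ 2)))) := by
    positivity
  nlinarith [mul_nonneg hE hy0.le]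

/-- The saddle point. -/
def saddlePt (n : ℕ) : ℝ := √√(π ^ 2 / 6 / n)

theorem tendsto_saddlePt : Tendsto saddlePt atTop (𝓝[>] (0 : ℝ)) := by
  refine tendsto_nhdsWithin_iff.2 ⟨?_, ?_⟩
  · have h0 := ((tendsto_const_div_atTop_nhds_zero_nat (π ^ 2 / 6)).sqrt).sqrt
    rw [Real.sqrt_zero, Real.sqrt_zero] at h0
    exact h0
  · filter_upwards [eventually_gt_atTop 0] with n hn
    exact Real.sqrt_pos.2 (Real.sqrt_pos.2 (div_pos (by positivity) (Nat.cast_pos.2 hn)))

/-- **The theorem of Hardy and Ramanujan.** -/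
theorem tendsto_partCount_div :
    Tendsto (fun n : ℕ => partCount n / (Real.exp (π * √(2 * n / 3)) / (4 * √3 * n)))
      atTop (𝓝 1) := by
  obtain ⟨C, hC, h⟩ := exists_partCount_sub_le
  obtain ⟨κ, hκ⟩ : ∃ κ, κ = √(π / (π ^ 2 / 6)) := ⟨_, rfl⟩
  have hI : Tendsto
      (fun n => ∫ v in (-(1 / saddlePt n))..(1 / saddlePt n), saddleFun (saddlePt n) v)
      atTop (𝓝 ((κ : ℝ) : ℂ)) := hκ ▸ tendsto_integral_saddleFun.comp tendsto_saddlePt
  have herr : Tendsto (fun T : ℝ => C * (Real.exp (-(1 / (20 * T ^ 2))) / T ^ 4)) (𝓝[>] 0)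
      (𝓝 0) := by
    have h1 : Tendsto (fun T : ℝ => 1 / (20 * T ^ 2)) (𝓝[>] 0) atTop := by
      have h2 : Tendsto (fun T : ℝ => 20 * T ^ 2) (𝓝[>] 0) (𝓝[>] 0) := by
        refine tendsto_nhdsWithin_iff.2 ⟨tendsto_nhdsWithin_of_tendsto_nhds
          (Continuous.tendsto' (by fun_prop) _ _ (by simp)), ?_⟩
        filter_upwards [self_mem_nhdsWithin] with T hT
        exact mul_pos (by norm_num : (0 : ℝ) < 20) (pow_pos (show (0 : ℝ) < T from hT) 2)
      simpa only [one_div, Function.comp_def] using (tendsto_inv_nhdsGT_zero).comp h2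
    have h3 := (((Real.tendsto_pow_mul_exp_neg_atTop_nhds_zero 2).comp h1).const_mul (C * 400))
    rw [mul_zero] at h3
    refine h3.congr' ?_
    filter_upwards [self_mem_nhdsWithin] with T hT
    have hT0 : T ≠ 0 := (show (0 : ℝ) < T from hT).ne'
    simp only [Function.comp_apply]
    field_simp
    ring
  have herr' := herr.comp tendsto_saddlePt
  have hlimC : Tendsto (fun n : ℕ => 2 * π * ((partCount n /
      (Real.exp (π ^ 2 / (3 * saddlePt n ^ 2)) * saddlePt n ^ 4) : ℝ) : ℂ)) atTop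
      (𝓝 (((1 / √(2 * π) : ℝ) : ℂ) * (κ : ℝ))) := by
    have hsub : Tendsto (fun n : ℕ => 2 * π * ((partCount n /
        (Real.exp (π ^ 2 / (3 * saddlePt n ^ 2)) * saddlePt n ^ 4) : ℝ) : ℂ) -
        ((1 / √(2 * π) : ℝ) : ℂ) *
          ∫ v in (-(1 / saddlePt n))..(1 / saddlePt n), saddleFun (saddlePt n) v) atTop (𝓝 0) := by
      refine squeeze_zero_norm' ?_ herr'
      filter_upwards [eventually_gt_atTop 0,
        (tendsto_nhdsWithin_iff.1 tendsto_saddlePt).1.eventually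
          (eventually_le_nhds (show (0 : ℝ) < 1 / 2 by norm_num)),
        (tendsto_nhdsWithin_iff.1 tendsto_saddlePt).2] with n hn hT2 hT0
      obtain ⟨T, hTd⟩ : ∃ T, T = saddlePt n := ⟨_, rfl⟩
      rw [← hTd] at hT2 hT0
      have hT0' : 0 < T := hT0
      simp only [Function.comp_apply, ← hTd]
      have hn0 : (0 : ℝ) < n := Nat.cast_pos.2 hn
      have hN : (n : ℝ) * T ^ 4 = π ^ 2 / 6 := by
        rw [show T ^ 4 = (T ^ 2) ^ 2 by ring, hTd, saddlePt, Real.sq_sqrt (Real.sqrt_nonneg _),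
          Real.sq_sqrt (by positivity)]
        field_simp
      have h1 := h n T hT0' hT2 hN
      obtain ⟨E, hE⟩ : ∃ E, E = Real.exp (π ^ 2 / (3 * T ^ 2)) := ⟨_, rfl⟩
      rw [← hE] at h1 ⊢
      have hE0 : 0 < E := hE ▸ Real.exp_pos _
      have hpos : 0 < E * T ^ 4 := by positivity
      refine le_of_mul_le_mul_left ?_ hpos
      have e : ∀ X : ℂ, E * T ^ 4 * ‖X‖ = ‖((E * T ^ 4 : ℝ) : ℂ) * X‖ := fun X => by
        rw [norm_mul, Complex.norm_real, Real.norm_of_nonneg hpos.le]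
      rw [e]
      refine le_trans (le_of_eq (congrArg norm ?_)) (h1.trans (le_of_eq ?_))
      · have hEC : (E : ℂ) ≠ 0 := ofReal_ne_zero.2 hE0.ne'
        have hTC : (T : ℂ) ≠ 0 := ofReal_ne_zero.2 hT0'.ne'
        push_cast
        field_simp
      · field_simp
    simpa using hsub.add (hI.const_mul ((1 / √(2 * π) : ℝ) : ℂ))
  have hre := (Complex.continuous_re.tendsto _).comp hlimC
  have hval : 4 * √3 * (π ^ 2 / 6) * ((1 / √(2 * π)) * κ) / (2 * π) = 1 := by
    rw [hκ, show π / (π ^ 2 / 6) = 6 / π by field_simp, Real.sqrt_div (by norm_num),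
      show (6 : ℝ) = 2 * 3 by norm_num, Real.sqrt_mul zero_le_two, Real.sqrt_mul zero_le_two]
    have s3 := Real.mul_self_sqrt (show (0 : ℝ) ≤ 3 by norm_num)
    have s2 := Real.mul_self_sqrt Real.pi_pos.le
    field_simp
    linear_combination (4 * π) * s3 - 12 * s2
  have hlim := hre.const_mul (4 * √3 * (π ^ 2 / 6) / (2 * π))
  refine Tendsto.congr' ?_ (by
    convert hlim using 2
    simp only [Complex.mul_re, Complex.ofReal_re, Complex.ofReal_im, mul_zero, sub_zero]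
    linear_combination -hval)
  filter_upwards [eventually_gt_atTop 0] with n hn
  have hn0 : (0 : ℝ) < n := Nat.cast_pos.2 hn
  have e2 : saddlePt n ^ 2 = √(π ^ 2 / 6 / n) := Real.sq_sqrt (Real.sqrt_nonneg _)
  have e4 : saddlePt n ^ 4 = π ^ 2 / 6 / n := by
    rw [show saddlePt n ^ 4 = (saddlePt n ^ 2) ^ 2 by ring, e2, Real.sq_sqrt (by positivity)]
  have eexp : π ^ 2 / (3 * saddlePt n ^ 2) = π * √(2 * n / 3) := by
    have hS : π ^ 2 / 6 / (n : ℝ) = π ^ 2 / (9 * (2 * n / 3)) := by field_simp; ring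
    rw [e2, hS, Real.sqrt_div (sq_nonneg π), Real.sqrt_sq Real.pi_pos.le,
      Real.sqrt_mul (by norm_num), show (9 : ℝ) = 3 ^ 2 by norm_num, Real.sqrt_sq (by norm_num)]
    field_simp
  simp only [Function.comp_apply, eexp, e4, Complex.mul_re, Complex.ofReal_re, Complex.ofReal_im,
    mul_zero, sub_zero, Complex.re_ofNat, Complex.im_ofNat]
  have hE := Real.exp_pos (π * √(2 * n / 3))
  field_simp

end FA.PartitionAsymptotic
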